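import Fermat.Agent.S40.Alg.Scal

/-! # S40 / ALG-END : the end game of TOP-40 as a statement of linear algebra -/

set_option autoImplicit false

namespace Fermat.Agent.S40.Alg

open Module

variable {k G V : Type*} [Field k] [Group G] [AddCommGroup V] [Module k V]

/-- `V` irreducible of dimension two with the quadratic relation; `I ≤ G` a subgroup on which `d` is not trivial.
(A) `(τ - 1) V` lies in the `d`-eigenspace `L` of `I`; (B) every extension of the trivial character by a line of `L` inside `V` lies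
in `L`.  Contradiction. -/
theorem endgame {ρ : G →* Module.End k V} {t : G → k} {d : G →* k} (h : QuadRel ρ t d)
    (hdim : finrank k V = 2)
    (hirr : ∀ N : Submodule k V, (∀ σ : G, ∀ v ∈ N, ρ σ v ∈ N) → N = ⊥ ∨ N = ⊤)
    (I : Subgroup G) {τ₀ : G} (hτ₀ : τ₀ ∈ I) (hd : d τ₀ ≠ 1)
    (hA : ∀ τ ∈ I, ∀ τ' ∈ I, ∀ v : V, ρ τ' (ρ τ v - v) = d τ' • (ρ τ v - v))
    (hB : ∀ P t : V, t ≠ 0 → (∀ τ ∈ I, ρ τ t = d τ • t) → (∀ τ ∈ I, ∃ c : k, ρ τ P - P = c • t) →
      ∀ τ ∈ I, ρ τ P = d τ • P) : False := by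
  have : FiniteDimensional k V := Module.finite_of_finrank_eq_succ hdim
  have hns := not_forall_scalar hdim hirr
  let L : Submodule k V :=
    { carrier := {v | ∀ τ ∈ I, ρ τ v = d τ • v}
      zero_mem' := fun τ _ => by rw [map_zero, smul_zero]
      add_mem' := fun {a b} ha hb τ hτ => by rw [map_add, ha τ hτ, hb τ hτ, smul_add]
      smul_mem' := fun c a ha τ hτ => by rw [map_smul, ha τ hτ, smul_comm] }
  have hL : ∀ v, v ∈ L ↔ ∀ τ ∈ I, ρ τ v = d τ • v := fun v => Iff.rfl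
  have hd0 : d τ₀ ≠ 0 := by
    intro h0
    have h1 : d τ₀ * d τ₀⁻¹ = 1 := by rw [← map_mul, mul_inv_cancel, map_one]
    rw [h0, zero_mul] at h1
    exact zero_ne_one h1
  have htop : L ≠ ⊤ := by
    intro htop
    apply hns
    refine forall_scalar_of_scalar h (g := τ₀) (s := d τ₀) ?_ ?_
    · ext v
      have hv : v ∈ L := htop ▸ Submodule.mem_top
      rw [(hL v).1 hv τ₀ hτ₀]
      rfl
    · intro h1
      apply hd
      have h2 : d τ₀ * d τ₀ = d τ₀ * 1 := by rw [mul_one, ← sq, ← h1]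
      exact mul_left_cancel₀ hd0 h2
  have hbot : L ≠ ⊥ := by
    intro hbot
    apply hns
    refine forall_scalar_of_scalar h (g := τ₀) (s := 1) ?_ (by rwa [one_pow])
    ext v
    have hv : ρ τ₀ v - v ∈ L := fun τ' hτ' => hA τ₀ hτ₀ τ' hτ' v
    rw [hbot, Submodule.mem_bot, sub_eq_zero] at hv
    rw [hv]
    simp
  obtain ⟨t₁, ht₁L, ht₁⟩ := (Submodule.ne_bot_iff L).1 hbot
  have hlt : finrank k L < 2 := by
    rw [← hdim]
    exact Submodule.finrank_lt htop
  have hpos : 0 < finrank k L := by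
    rw [Module.finrank_pos_iff]
    exact ⟨⟨⟨t₁, ht₁L⟩, 0, fun h0 => ht₁ (congrArg Subtype.val h0)⟩⟩
  have hone : finrank k L = 1 := by omega
  have hspan : ∀ w ∈ L, ∃ c : k, w = c • t₁ := by
    intro w hw
    have h1 := (finrank_eq_one_iff_of_nonzero' (⟨t₁, ht₁L⟩ : L)
      (fun h0 => ht₁ (congrArg Subtype.val h0))).1 hone ⟨w, hw⟩
    obtain ⟨c, hc⟩ := h1
    exact ⟨c, (congrArg Subtype.val hc).symm⟩
  apply htop
  rw [eq_top_iff]
  intro P _
  exact hB P t₁ ht₁ ((hL t₁).1 ht₁L)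
    (fun τ hτ => hspan _ (fun τ' hτ' => hA τ hτ τ' hτ' P))

end Fermat.Agent.S40.Alg
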