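import Fermat.Agent.S40.Alg.Defs

/-! # S40 / ALG-BLR (see `Alg/Defs.lean` for the notation) -/

set_option autoImplicit false

namespace Fermat.Agent.S40.Alg

open Module

variable {k G V Y : Type*} [Field k] [Group G] [AddCommGroup V] [Module k V] [AddCommGroup Y]
  [Module k Y]

/-- a non scalar endomorphism `U = [E₁₂, E₂₁]` with `U² = 1`. -/
theorem blr_exists_comm (h2 : (2 : k) ≠ 0) (hdim : finrank k V = 2) :
    ∃ E F : Module.End k V, (E * F - F * E) * (E * F - F * E) = 1 ∧
      ∀ c : k, E * F - F * E ≠ c • 1 := by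
  have : FiniteDimensional k V := FiniteDimensional.of_finrank_pos (by omega)
  let e : Module.End k V ≃ₐ[k] Matrix (Fin 2) (Fin 2) k :=
    algEquivMatrix (finBasisOfFinrankEq k V hdim)
  refine ⟨e.symm !![0, 1; 0, 0], e.symm !![0, 0; 1, 0], ?_, fun c hc => ?_⟩
  · apply e.injective
    simp only [map_mul, map_sub, AlgEquiv.apply_symm_apply, map_one]
    ext i j
    fin_cases i <;> fin_cases j <;> simp [Matrix.mul_apply, Fin.sum_univ_two]
  · have h := congrArg e hc
    simp only [map_mul, map_sub, AlgEquiv.apply_symm_apply, map_smul, map_one] at h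
    have h00 := congrFun (congrFun h 0) 0
    have h11 := congrFun (congrFun h 1) 1
    simp at h00 h11
    apply h2
    rw [← h00] at h11
    linear_combination -h11

/-- the abstract form: `A` any algebra, `T : A → k` any function such that `a ↦ T a - R a` is anti-multiplicative for
`R = R_V` and `R = R_Y`. -/
theorem blr_abs {A : Type*} [Ring A] [Algebra k A] (h2 : (2 : k) ≠ 0)
    (RV : A →ₐ[k] Module.End k V) (RY : A →ₐ[k] Module.End k Y) (T : A → k)
    (amV : ∀ a b, T (a * b) • (1 : Module.End k V) - RV (a * b) =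
      (T b • 1 - RV b) * (T a • 1 - RV a))
    (amY : ∀ a b, T (a * b) • (1 : Module.End k Y) - RY (a * b) =
      (T b • 1 - RY b) * (T a • 1 - RY a))
    (hdim : finrank k V = 2) (hsurj : Function.Surjective RV) (x : A) (hx : RV x = 0) :
    RY x = 0 := by
  have hV1 : (1 : Module.End k V) ≠ 0 := by
    have : Nontrivial V := Module.nontrivial_of_finrank_pos (R := k) (by omega)
    exact one_ne_zero
  have hsc : ∀ c : k, c • (1 : Module.End k V) = 0 → c = 0 := fun c hc =>
    (smul_eq_zero.1 hc).resolve_right hV1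
  obtain ⟨E, F, hUU, hUns⟩ := blr_exists_comm (V := V) h2 hdim
  obtain ⟨a0, rfl⟩ := hsurj E
  obtain ⟨b0, rfl⟩ := hsurj F
  set u : A := a0 * b0 - b0 * a0 with hu
  have hRVu : RV u = RV a0 * RV b0 - RV b0 * RV a0 := by rw [hu, map_sub, map_mul, map_mul]
  rw [← hRVu] at hUU hUns
  -- (i)
  have h1 : ∀ a, T (x * a) • (1 : Module.End k V) = T x • (T a • 1 - RV a) := by
    intro a
    have := amV x a
    rw [map_mul, hx, zero_mul, sub_zero, sub_zero, mul_smul_comm, mul_one] at this
    exact this
  have hTx : T x = 0 := by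
    by_contra hne
    apply hUns (T u - (T x)⁻¹ * T (x * u))
    have := h1 u
    have h3 : RV u = T u • 1 - (T x)⁻¹ • (T x • (T u • (1 : Module.End k V) - RV u)) := by
      rw [smul_smul, inv_mul_cancel₀ hne, one_smul]; abel
    rw [h3, ← this, smul_smul, sub_smul]
  have hTxa : ∀ a, T (x * a) = 0 := fun a => hsc _ (by rw [h1 a, hTx, zero_smul])
  set X := RY x with hX
  -- (ii)
  have star : ∀ a, X * RY a = T a • X - RY a * X := by
    intro a
    have := amY x a
    rw [hTxa, hTx, zero_smul, zero_sub, zero_sub, map_mul, mul_neg, sub_mul,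
      smul_mul_assoc, one_mul, neg_inj] at this
    exact this
  -- (iii)
  have hTcomm : ∀ a b, T (a * b) = T (b * a) := by
    intro a b
    have e1 := amV a b
    have e2 := amV b a
    rw [map_mul] at e1 e2
    simp only [sub_mul, mul_sub, smul_mul_assoc, mul_smul_comm, one_mul, mul_one] at e1 e2
    have : (T (a * b) - T (b * a)) • (1 : Module.End k V) = 0 := by
      rw [sub_smul]
      linear_combination (norm := module) e1 - e2
    exact sub_eq_zero.1 (hsc _ this)
  have hcomm : ∀ a b, (RY a * RY b - RY b * RY a) * X = 0 := by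
    intro a b
    have key : ∀ a b, T (a * b) • X - RY a * RY b * X =
        (T a * T b) • X - T a • (RY b * X) - T b • (RY a * X) + RY a * RY b * X := by
      intro a b
      have e1 := star (a * b)
      rw [map_mul, ← mul_assoc, star a, sub_mul, smul_mul_assoc, mul_assoc, star b] at e1
      rw [← e1]
      simp only [mul_sub, mul_smul_comm, smul_sub, smul_smul, mul_assoc]
      abel
    have e1 := key a b
    have e2 := key b a
    rw [hTcomm b a] at e2
    have h3 : (2 : k) • ((RY a * RY b - RY b * RY a) * X) = 0 := by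
      rw [sub_mul, two_smul]
      rw [mul_comm (T b) (T a)] at e2
      linear_combination (norm := module) e2 - e1
    exact (smul_eq_zero.1 h3).resolve_left h2
  -- (v)
  have e1 := amV u u
  rw [map_mul, hUU] at e1
  simp only [sub_mul, mul_sub, smul_mul_assoc, mul_smul_comm, one_mul, mul_one, hUU] at e1
  have hTu : T u = 0 := by
    by_contra hne
    apply hUns ((2 * T u)⁻¹ * (T u * T u + 2 - T (u * u)))
    have h3 : (2 * T u) • RV u = (T u * T u + 2 - T (u * u)) • (1 : Module.End k V) := by
      linear_combination (norm := module) e1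
    rw [mul_smul, ← h3, smul_smul, inv_mul_cancel₀ (mul_ne_zero h2 hne), one_smul]
  have hTuu : T (u * u) = 2 := by
    rw [hTu] at e1
    simp only [zero_smul, zero_sub, neg_neg] at e1
    have : (T (u * u) - 2) • (1 : Module.End k V) = 0 := by
      rw [sub_smul, two_smul]
      linear_combination (norm := module) e1
    exact sub_eq_zero.1 (hsc _ this)
  have e2 := amY u u
  rw [hTu, hTuu, zero_smul, zero_sub, neg_mul_neg, map_mul] at e2
  have hWW : RY u * RY u = 1 := by
    have : (2 : k) • (RY u * RY u - 1) = 0 := by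
      rw [smul_sub, two_smul k (RY u * RY u)]
      linear_combination (norm := module) - e2
    exact sub_eq_zero.1 ((smul_eq_zero.1 this).resolve_left h2)
  have hWX : RY u * X = 0 := by
    rw [hu, map_sub, map_mul, map_mul]
    exact hcomm a0 b0
  calc X = (RY u * RY u) * X := by rw [hWW, one_mul]
    _ = 0 := by rw [mul_assoc, hWX, mul_zero]

/-- the linear extension of `t`. -/
noncomputable def blrT (t : G → k) : MonoidAlgebra k G →ₗ[k] k :=
  (Finsupp.linearCombination k t).comp (MonoidAlgebra.coeffLinearEquiv k).toLinearMap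

theorem blrT_of (t : G → k) (σ : G) : blrT t (MonoidAlgebra.of k G σ) = t σ := by
  simp [blrT, MonoidAlgebra.of]

/-- `a ↦ T a - R a` is anti-multiplicative. -/
theorem blr_antimul {W : Type*} [AddCommGroup W] [Module k W] {ρ : G →* Module.End k W} {t : G → k}
    {d : G →* k} (h : QuadRel ρ t d) (a b : MonoidAlgebra k G) :
    blrT t (a * b) • (1 : Module.End k W) - MonoidAlgebra.lift k (Module.End k W) G ρ (a * b) =
      (blrT t b • 1 - MonoidAlgebra.lift k (Module.End k W) G ρ b) *
        (blrT t a • 1 - MonoidAlgebra.lift k (Module.End k W) G ρ a) := by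
  set R := MonoidAlgebra.lift k (Module.End k W) G ρ with hR
  have hof : ∀ σ : G, blrT t (MonoidAlgebra.of k G σ) • (1 : Module.End k W) -
      R (MonoidAlgebra.of k G σ) = d σ • ρ σ⁻¹ := by
    intro σ
    rw [blrT_of, hR, MonoidAlgebra.lift_of, ← h σ]
    abel
  induction a using MonoidAlgebra.induction_on with
  | of σ =>
    induction b using MonoidAlgebra.induction_on with
    | of τ =>
      rw [← map_mul, hof, hof, hof, map_mul, mul_inv_rev, map_mul, smul_mul_smul_comm, mul_comm (d σ)]
    | add b b' hb hb' =>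
      rw [mul_add, map_add, map_add, map_add, map_add, add_smul, add_smul]
      have e1 : ∀ p q r s : Module.End k W, p + q - (r + s) = (p - r) + (q - s) := by
        intro p q r s; abel
      rw [e1, e1, hb, hb', add_mul]
    | smul c b hb =>
      rw [mul_smul_comm, map_smul, map_smul, map_smul, map_smul, smul_eq_mul, smul_eq_mul,
        mul_smul, mul_smul, ← smul_sub, ← smul_sub, hb, smul_mul_assoc]
  | add a a' ha ha' =>
    rw [add_mul, map_add, map_add, map_add, map_add, add_smul, add_smul]
    have e1 : ∀ p q r s : Module.End k W, p + q - (r + s) = (p - r) + (q - s) := by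
      intro p q r s; abel
    rw [e1, e1, ha, ha', mul_add]
  | smul c a ha =>
    rw [smul_mul_assoc, map_smul, map_smul, map_smul, map_smul, smul_eq_mul, smul_eq_mul,
      mul_smul, mul_smul, ← smul_sub, ← smul_sub, ha, mul_smul_comm]

/-- **[ALG-BLR]**.  Let `R_V x = 0`.
(i) `T(x a) • 1 = R_V(x a) + R_V(star a) R_V(star x) = T(x) • R_V(star a)` for all `a`; `R_V(star a)` can be any endomorphism, e.g. a
non-scalar one: `T(x) = 0`, hence `T(x a) = 0` for all `a`.
(ii) on `Y`: `R_Y(x) = - R_Y(star x)` and `R_Y(x) R_Y(a) = - R_Y(star a) R_Y(star x) = R_Y(star a) R_Y(x)`.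
(iii) `R_Y(x) R_Y(a) R_Y(b)` computed in two ways: `R_Y(star a star b - star b star a) R_Y(x) = 0`; so `R_Y(a b - b a) R_Y(x) = 0` for ALL `a b`.
(iv) for every `u` there is `n ∈ k` with `R(star u) R(u) = n • 1` for `R = R_V` AND `R = R_Y` (induction on `u`:
`star(u+w)(u+w) = star u u + star w w + (z + star z)`, `z = star u w`, and `R(z + star z) = T(z) • 1`).
(v) take `a b` with `R_V(a b - b a) = diag(1,-1)` (`= [E₁₂, E₂₁]`), `u = a b - b a`: `R_V u` is invertible and not a scalar.  `n ≠ 0`: otherwise
`R_V(star u) = 0`, `R_V u = T(u) • 1`.  Then `n • R_Y(x) = R_Y(star u) R_Y(u) R_Y(x) = 0`. -/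
theorem blr (h2 : (2 : k) ≠ 0) {ρV : G →* Module.End k V} {ρY : G →* Module.End k Y} {t : G → k}
    {d : G →* k} (hV : QuadRel ρV t d) (hY : QuadRel ρY t d) (hdim : finrank k V = 2)
    (hsurj : Function.Surjective (MonoidAlgebra.lift k (Module.End k V) G ρV))
    (x : MonoidAlgebra k G) (hx : MonoidAlgebra.lift k (Module.End k V) G ρV x = 0) :
    MonoidAlgebra.lift k (Module.End k Y) G ρY x = 0 :=
  blr_abs h2 _ _ (blrT t) (blr_antimul hV) (blr_antimul hY) hdim hsurj x hx

end Fermat.Agent.S40.Alg
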