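import Fermat.Agent.S40.Alg.Scal

/-! # S40 / ALG-BURN (see `Alg/Defs.lean` for the notation) -/

set_option autoImplicit false

namespace Fermat.Agent.S40.Alg

open Module

variable {k G V Y : Type*} [Field k] [Group G] [AddCommGroup V] [Module k V] [AddCommGroup Y]
  [Module k Y]

/-- **[ALG-BURN]**.  Proof: `ρ c` is not a scalar (`forall_scalar_of_scalar` with `s = ± 1`... more precisely: if `ρ c = s • 1`
then `s² = 1 ≠ -1 = d c`; `not_forall_scalar`).  `e± = (1 ± ρ c)/2` are idempotents `≠ 0`, `e₊ + e₋ = 1`, `e₊ e₋ = 0`: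
`V = V₊ ⊕ V₋`, both of dimension one, `V± = k v±`.  `B = range R_V` is a subalgebra containing `e±`; `B v₊` is a stable subspace
`≠ 0`, so `= V`: there is `b ∈ B` with `b v₊ = v₋`, and `e₋ b e₊` is the elementary matrix `v₊ ↦ v₋, v₋ ↦ 0`.  Idem with `±`
exchanged.  The four elementary matrices span `End V`. -/
theorem lift_surjective (h2 : (2 : k) ≠ 0) {ρ : G →* Module.End k V} {t : G → k} {d : G →* k}
    (h : QuadRel ρ t d) (hdim : finrank k V = 2)
    (hirr : ∀ N : Submodule k V, (∀ σ : G, ∀ v ∈ N, ρ σ v ∈ N) → N = ⊥ ∨ N = ⊤)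
    {c : G} (hc : c * c = 1) (hdc : d c = -1) :
    Function.Surjective (MonoidAlgebra.lift k (Module.End k V) G ρ) := by
  classical
  set R := MonoidAlgebra.lift k (Module.End k V) G ρ with hR
  have hRof : ∀ σ : G, R (MonoidAlgebra.of k G σ) = ρ σ := fun σ => MonoidAlgebra.lift_of ρ σ
  have : Nontrivial V := Module.nontrivial_of_finrank_pos (R := k) (by omega)
  have : FiniteDimensional k V := Module.finite_of_finrank_eq_succ hdim
  have hCC : ρ c * ρ c = 1 := by rw [← map_mul, hc, map_one]
  have hCC' : ∀ w : V, ρ c (ρ c w) = w := fun w => by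
    have := congrArg (fun f : Module.End k V => f w) hCC
    simpa using this
  -- `ρ c` is not a scalar
  have hns : ∀ s : k, ρ c ≠ s • (1 : Module.End k V) := by
    intro s hs
    refine not_forall_scalar hdim hirr (forall_scalar_of_scalar h hs ?_)
    have h1 : s ^ 2 = 1 := by
      rw [hs, smul_mul_smul_comm, one_mul] at hCC
      obtain ⟨v, hv⟩ := exists_ne (0 : V)
      have h2 := congrArg (fun f : Module.End k V => f v) hCC
      simp only [LinearMap.smul_apply, Module.End.one_apply] at h2
      have h3 : (s * s - 1) • v = 0 := by rw [sub_smul, h2, one_smul, sub_self]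
      rcases smul_eq_zero.1 h3 with h4 | h4
      · linear_combination h4
      · exact absurd h4 hv
    rw [hdc, h1]
    intro h3
    apply h2
    linear_combination -h3
  -- eigenvectors
  obtain ⟨vp, hvp0, hvp⟩ : ∃ v : V, v ≠ 0 ∧ ρ c v = v := by
    by_contra hcon
    push Not at hcon
    apply hns (-1)
    ext w
    have h1 : w + ρ c w = 0 := by
      by_contra h0
      exact hcon _ h0 (by rw [map_add, hCC', add_comm])
    simp only [LinearMap.smul_apply, Module.End.one_apply, neg_smul, one_smul]
    exact eq_neg_of_add_eq_zero_right h1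
  obtain ⟨vm, hvm0, hvm⟩ : ∃ v : V, v ≠ 0 ∧ ρ c v = -v := by
    by_contra hcon
    push Not at hcon
    apply hns 1
    ext w
    have h1 : w - ρ c w = 0 := by
      by_contra h0
      exact hcon _ h0 (by rw [map_sub, hCC', neg_sub])
    simp only [LinearMap.smul_apply, Module.End.one_apply, one_smul]
    exact (sub_eq_zero.1 h1).symm
  -- they span `V`
  have hli : LinearIndependent k ![vp, vm] := by
    rw [LinearIndependent.pair_iff]
    intro a b hab
    have h1 := congrArg (ρ c) hab
    rw [map_add, map_smul, map_smul, hvp, hvm, map_zero, smul_neg] at h1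
    have h3 : (2 * a) • vp = 0 := by
      have : (2 * a) • vp = (a • vp + b • vm) + (a • vp + -(b • vm)) := by module
      rw [this, hab, h1, add_zero]
    have h4 : (2 * b) • vm = 0 := by
      have : (2 * b) • vm = (a • vp + b • vm) - (a • vp + -(b • vm)) := by module
      rw [this, hab, h1, sub_zero]
    constructor
    · rcases smul_eq_zero.1 h3 with h5 | h5
      · exact (mul_eq_zero.1 h5).resolve_left h2
      · exact absurd h5 hvp0
    · rcases smul_eq_zero.1 h4 with h5 | h5
      · exact (mul_eq_zero.1 h5).resolve_left h2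
      · exact absurd h5 hvm0
  have hspan : Submodule.span k (Set.range ![vp, vm]) = ⊤ :=
    hli.span_eq_top_of_card_eq_finrank' (by rw [hdim]; rfl)
  -- transitivity
  have htrans : ∀ v : V, v ≠ 0 → ∀ w : V, ∃ a : MonoidAlgebra k G, R a v = w := by
    intro v hv w
    let N : Submodule k V := LinearMap.range ((LinearMap.applyₗ v).comp R.toLinearMap)
    have hN : ∀ u : V, u ∈ N ↔ ∃ a : MonoidAlgebra k G, R a v = u := fun u => Iff.rfl
    rcases hirr N (by
      intro σ u hu
      obtain ⟨a, rfl⟩ := (hN u).1 hu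
      refine (hN _).2 ⟨MonoidAlgebra.of k G σ * a, ?_⟩
      rw [map_mul, hRof, Module.End.mul_apply]) with h0 | h0
    · exfalso
      apply hv
      have : v ∈ N := (hN v).2 ⟨1, by rw [map_one, Module.End.one_apply]⟩
      rw [h0] at this
      exact (Submodule.mem_bot k).1 this
    · exact (hN w).1 (by rw [h0]; exact Submodule.mem_top)
  intro f
  obtain ⟨a₁, ha₁⟩ := htrans vp hvp0 (f vp)
  obtain ⟨a₂, ha₂⟩ := htrans vm hvm0 (f vm)
  refine ⟨a₁ * ((2 : k)⁻¹ • (1 + MonoidAlgebra.of k G c)) +
    a₂ * ((2 : k)⁻¹ • (1 - MonoidAlgebra.of k G c)), ?_⟩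
  refine LinearMap.ext_on hspan ?_
  rintro _ ⟨i, rfl⟩
  have e2 : (2 : k)⁻¹ * 2 = 1 := inv_mul_cancel₀ h2
  fin_cases i
  · simp only [map_add, map_mul, map_smul, map_sub, map_one, hRof, LinearMap.add_apply,
      Module.End.mul_apply, LinearMap.smul_apply, Module.End.one_apply, LinearMap.sub_apply,
      Fin.zero_eta, Matrix.cons_val_zero, hvp, sub_self, smul_zero, map_zero, add_zero]
    rw [← two_smul k (R a₁ vp), smul_smul, e2, one_smul, ha₁]
  · simp only [map_add, map_mul, map_smul, map_sub, map_one, hRof, LinearMap.add_apply,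
      Module.End.mul_apply, LinearMap.smul_apply, Module.End.one_apply, LinearMap.sub_apply,
      Fin.mk_one, Matrix.cons_val_one, Matrix.cons_val_fin_one, hvm, add_neg_cancel, smul_zero,
      map_zero, zero_add, sub_neg_eq_add]
    rw [← two_smul k (R a₂ vm), smul_smul, e2, one_smul, ha₂]

end Fermat.Agent.S40.Alg
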