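import Mathlib

/-!
# S40 / ALG : the lemma of Boston-Lenstra-Ribet in dimension two, by pure algebra (Mathlib only)

`k` a field, `2 ≠ 0`; `G` a group; `V`, `Y` two `k[G]`-modules on which every `σ ∈ G` satisfies THE SAME quadratic relation
`σ + d(σ) σ⁻¹ = t(σ)`  (`QuadRel`; `d : G →* k` multiplicative, `t : G → k` any function).
`V` is irreducible of dimension two and there is an involution `c` with `d c = -1`.  Then:

* `[ALG-SCAL]`  if some `g` acts on `V` as a scalar `s` with `d g ≠ s²`, then every `σ` acts on `V` as a scalar;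
* `[ALG-BURN]`  `k[G] → End_k(V)` is onto;
* `[ALG-BLR]`   `Ann_{k[G]}(V)` kills `Y`;
* `[ALG-IOTA]`  if `Y ≠ 0` there is an injective `G`-equivariant linear map `V → Y`.

Notation in the proofs: `R_V = MonoidAlgebra.lift k _ G ρV`, `R_Y` idem.
`star : k[G] → k[G]` the `k`-linear map `σ ↦ d(σ) σ⁻¹` (anti-multiplicative, `star ∘ star = id`),
`T : k[G] → k` the `k`-linear map `σ ↦ t(σ)`.  By linearity `R(a) + R(star a) = T(a) • 1` for `R = R_V, R_Y`.
-/

set_option autoImplicit false

namespace Fermat.Agent.S40.Alg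

open Module

variable {k G V Y : Type*} [Field k] [Group G] [AddCommGroup V] [Module k V] [AddCommGroup Y]
  [Module k Y]

/-- every `σ` satisfies `σ + d(σ) σ⁻¹ = t(σ)`. -/
def QuadRel (ρ : G →* Module.End k V) (t : G → k) (d : G →* k) : Prop :=
  ∀ σ : G, ρ σ + d σ • ρ σ⁻¹ = t σ • (1 : Module.End k V)

end Fermat.Agent.S40.Alg
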