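import Fermat.Agent.S40.Alg.Defs

/-! # S40 / ALG-IOTA (see `Alg/Defs.lean` for the notation) -/

set_option autoImplicit false

namespace Fermat.Agent.S40.Alg

open Module

variable {k G V Y : Type*} [Field k] [Group G] [AddCommGroup V] [Module k V] [AddCommGroup Y]
  [Module k Y]

/-- **[ALG-IOTA]**.  `b` a basis of `V` (finite), `E_i := (b.coord i).smulRight (b i)`, `∑ E_i = 1`; `e_i` a lift of `E_i` to `k[G]`.
`R_V(1 - ∑ e_i) = 0`, so `y = ∑ R_Y(e_i) y`: for `y ≠ 0` some `y_i := R_Y(e_i) y ≠ 0`.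
`ι v := R_Y(s((b.coord i).smulRight v)) y` with `s = Function.surjInv hsurj`; additive, `k`-linear, equivariant and independent of the choice of `s`
because `ker R_V ⊆ ker R_Y`; `ι (b i) = y_i ≠ 0`; `ker ι` is stable and `≠ ⊤`, so `= ⊥`. -/
theorem exists_iota [FiniteDimensional k V] {ρV : G →* Module.End k V} {ρY : G →* Module.End k Y}
    (hsurj : Function.Surjective (MonoidAlgebra.lift k (Module.End k V) G ρV))
    (hker : ∀ x : MonoidAlgebra k G, MonoidAlgebra.lift k (Module.End k V) G ρV x = 0 →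
      MonoidAlgebra.lift k (Module.End k Y) G ρY x = 0)
    (hirr : ∀ N : Submodule k V, (∀ σ : G, ∀ v ∈ N, ρV σ v ∈ N) → N = ⊥ ∨ N = ⊤)
    (hY0 : ∃ y : Y, y ≠ 0) :
    ∃ ι : V →ₗ[k] Y, Function.Injective ι ∧ ∀ (σ : G) (v : V), ι (ρV σ v) = ρY σ (ι v) := by
  classical
  set RV := MonoidAlgebra.lift k (Module.End k V) G ρV with hRV
  set RY := MonoidAlgebra.lift k (Module.End k Y) G ρY with hRY
  set s := Function.surjInv hsurj with hs
  have hs' : ∀ E, RV (s E) = E := Function.surjInv_eq hsurj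
  have key : ∀ a a' : MonoidAlgebra k G, RV a = RV a' → RY a = RY a' := by
    intro a a' h
    have := hker (a - a') (by rw [map_sub, h, sub_self])
    rwa [map_sub, sub_eq_zero] at this
  have hΦ : ∀ a, RY (s (RV a)) = RY a := fun a => key _ _ (hs' _)
  let Φ : Module.End k V →ₗ[k] Module.End k Y :=
    { toFun := fun E => RY (s E)
      map_add' := fun E E' => by
        rw [← map_add]
        exact key _ _ (by rw [map_add, hs', hs', hs'])
      map_smul' := fun c E => by
        rw [RingHom.id_apply, ← map_smul]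
        exact key _ _ (by rw [map_smul, hs', hs']) }
  have Φ_mul : ∀ E E', Φ (E * E') = Φ E * Φ E' := fun E E' => by
    change RY (s (E * E')) = RY (s E) * RY (s E')
    rw [← map_mul]
    exact key _ _ (by rw [map_mul, hs', hs', hs'])
  have Φ_one : Φ 1 = 1 := by
    change RY (s 1) = 1
    rw [← map_one RY]
    exact key _ _ (by rw [hs', map_one])
  have Φ_ρ : ∀ σ : G, Φ (ρV σ) = ρY σ := fun σ => by
    have h1 : RV (MonoidAlgebra.of k G σ) = ρV σ := MonoidAlgebra.lift_of _ _
    have h2 : RY (MonoidAlgebra.of k G σ) = ρY σ := MonoidAlgebra.lift_of _ _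
    rw [← h1, ← h2]
    exact hΦ _
  obtain ⟨y, hy⟩ := hY0
  let b := Module.finBasis k V
  have hsum : (∑ i, (b.coord i).smulRight (b i) : Module.End k V) = 1 := by
    refine LinearMap.ext fun v => ?_
    rw [LinearMap.sum_apply]
    simp only [LinearMap.smulRight_apply, Basis.coord_apply, Module.End.one_apply]
    exact b.sum_repr v
  obtain ⟨i, hi⟩ : ∃ i, Φ ((b.coord i).smulRight (b i)) y ≠ 0 := by
    by_contra hcon
    push Not at hcon
    apply hy
    have : Φ 1 y = 0 := by
      rw [← hsum, map_sum, LinearMap.sum_apply]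
      exact Finset.sum_eq_zero fun i _ => hcon i
    rwa [Φ_one] at this
  let ι : V →ₗ[k] Y := (LinearMap.applyₗ y).comp (Φ.comp (LinearMap.smulRightₗ (b.coord i)))
  have ι_apply : ∀ v, ι v = Φ ((b.coord i).smulRight v) y := fun v => rfl
  have hequiv : ∀ (σ : G) (v : V), ι (ρV σ v) = ρY σ (ι v) := by
    intro σ v
    rw [ι_apply, ι_apply, ← Φ_ρ, ← Module.End.mul_apply, ← Φ_mul]
    congr 2
    refine LinearMap.ext fun w => ?_
    simp only [LinearMap.smulRight_apply, Module.End.mul_apply, map_smul]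
  refine ⟨ι, ?_, hequiv⟩
  rw [← LinearMap.ker_eq_bot]
  rcases hirr (LinearMap.ker ι) (fun σ v hv => by
    rw [LinearMap.mem_ker] at hv ⊢
    rw [hequiv, hv, map_zero]) with h | h
  · exact h
  · exfalso
    apply hi
    rw [← ι_apply]
    have : b i ∈ LinearMap.ker ι := by rw [h]; trivial
    exact this

end Fermat.Agent.S40.Alg
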