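import Fermat.Agent.S40.Alg.Burn
import Fermat.Agent.S40.Alg.BLR
import Fermat.Agent.S40.Alg.Iota

/-! # S40 / ALG : assembly -/

set_option autoImplicit false

namespace Fermat.Agent.S40.Alg

open Module

variable {k G V Y : Type*} [Field k] [Group G] [AddCommGroup V] [Module k V] [AddCommGroup Y]
  [Module k Y]

/-- the four statements together. -/
theorem exists_embedding (h2 : (2 : k) ≠ 0) {ρV : G →* Module.End k V} {ρY : G →* Module.End k Y}
    {t : G → k} {d : G →* k} (hV : QuadRel ρV t d) (hY : QuadRel ρY t d) (hdim : finrank k V = 2)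
    (hirr : ∀ N : Submodule k V, (∀ σ : G, ∀ v ∈ N, ρV σ v ∈ N) → N = ⊥ ∨ N = ⊤)
    {c : G} (hc : c * c = 1) (hdc : d c = -1) (hY0 : ∃ y : Y, y ≠ 0) :
    ∃ ι : V →ₗ[k] Y, Function.Injective ι ∧ ∀ (σ : G) (v : V), ι (ρV σ v) = ρY σ (ι v) := by
  have : FiniteDimensional k V := Module.finite_of_finrank_eq_succ hdim
  have hsurj := lift_surjective h2 hV hdim hirr hc hdc
  exact exists_iota hsurj (blr h2 hV hY hdim hsurj) hirr hY0

end Fermat.Agent.S40.Alg
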