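import Fermat.Agent.S40.Alg.Defs

/-! # S40 / ALG-SCAL (see `Alg/Defs.lean` for the notation) -/

set_option autoImplicit false

namespace Fermat.Agent.S40.Alg

open Module

variable {k G V Y : Type*} [Field k] [Group G] [AddCommGroup V] [Module k V] [AddCommGroup Y]
  [Module k Y]

/-- **[ALG-SCAL]**.  Proof: relation for `σ g`: `s σ + d(σ) d(g) s⁻¹ σ⁻¹ = t(σ g)` (`s ≠ 0` because `ρ g` is invertible);
`s ×` relation for `σ`: `s σ + s d(σ) σ⁻¹ = s t(σ)`.  Subtract: `d(σ) (d(g) s⁻¹ - s) σ⁻¹` is a scalar, `d(σ) ≠ 0`,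
`d(g) s⁻¹ - s ≠ 0`; so `σ⁻¹`, hence `σ`, is a scalar. -/
theorem forall_scalar_of_scalar {ρ : G →* Module.End k V} {t : G → k} {d : G →* k}
    (h : QuadRel ρ t d) {g : G} {s : k} (hs : ρ g = s • (1 : Module.End k V)) (hne : d g ≠ s ^ 2)
    (σ : G) : ∃ c : k, ρ σ = c • (1 : Module.End k V) := by
  have hgg : ρ g * ρ g⁻¹ = 1 := by rw [← map_mul, mul_inv_cancel, map_one]
  by_cases hs0 : s = 0
  · -- then `End k V` is the zero ring
    rw [hs, hs0, zero_smul, zero_mul] at hgg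
    refine ⟨0, ?_⟩
    rw [zero_smul, ← mul_one (ρ σ), ← hgg, mul_zero]
  have hginv : ρ g⁻¹ = s⁻¹ • (1 : Module.End k V) := by
    rw [hs, smul_mul_assoc, one_mul] at hgg
    rw [← hgg, smul_smul, inv_mul_cancel₀ hs0, one_smul]
  have hdσ : d σ ≠ 0 := by
    intro h0
    have h1 : d σ * d σ⁻¹ = 1 := by rw [← map_mul, mul_inv_cancel, map_one]
    rw [h0, zero_mul] at h1
    exact zero_ne_one h1
  have hne' : d g * s⁻¹ - s ≠ 0 := by
    intro h0
    apply hne
    have : d g * s⁻¹ = s := sub_eq_zero.1 h0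
    field_simp at this
    rw [this]
  have r1 := h (σ * g)
  rw [map_mul, mul_inv_rev, map_mul, map_mul, hs, hginv, mul_smul_comm, mul_one, smul_mul_assoc,
    one_mul, smul_smul] at r1
  have r2 := h σ
  have r3 : (d σ * (d g * s⁻¹ - s)) • ρ σ⁻¹ = (t (σ * g) - s * t σ) • (1 : Module.End k V) := by
    have e1 : (d σ * (d g * s⁻¹ - s)) • ρ σ⁻¹ =
        (s • ρ σ + (d σ * d g * s⁻¹) • ρ σ⁻¹) - s • (ρ σ + d σ • ρ σ⁻¹) := by
      rw [smul_add, smul_smul]
      module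
    rw [e1, r1, r2, smul_smul, sub_smul]
  have r4 : ρ σ⁻¹ = ((d σ * (d g * s⁻¹ - s))⁻¹ * (t (σ * g) - s * t σ)) • (1 : Module.End k V) := by
    rw [mul_smul, ← r3, smul_smul, inv_mul_cancel₀ (mul_ne_zero hdσ hne'), one_smul]
  refine ⟨t σ - d σ * ((d σ * (d g * s⁻¹ - s))⁻¹ * (t (σ * g) - s * t σ)), ?_⟩
  rw [sub_smul, ← r2, mul_smul, ← r4, add_sub_cancel_right]

/-- an irreducible representation of dimension two does not consist of scalars. -/
theorem not_forall_scalar {ρ : G →* Module.End k V} (hdim : finrank k V = 2)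
    (hirr : ∀ N : Submodule k V, (∀ σ : G, ∀ v ∈ N, ρ σ v ∈ N) → N = ⊥ ∨ N = ⊤) :
    ¬ ∀ σ : G, ∃ c : k, ρ σ = c • (1 : Module.End k V) := by
  intro hall
  have : Nontrivial V := Module.nontrivial_of_finrank_pos (R := k) (by omega)
  obtain ⟨v, hv⟩ := exists_ne (0 : V)
  rcases hirr (Submodule.span k {v}) (by
    intro σ w hw
    obtain ⟨c, hc⟩ := hall σ
    rw [hc, LinearMap.smul_apply, Module.End.one_apply]
    exact Submodule.smul_mem _ _ hw) with h | h
  · exact hv ((Submodule.span_singleton_eq_bot).1 h)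
  · have h1 := finrank_span_singleton (K := k) hv
    rw [h, finrank_top, hdim] at h1
    omega

end Fermat.Agent.S40.Alg
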